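/-
S56, local toolkit at a prime `q` (helper7), file 4: THE DECOMPOSITION GROUP IS GENERATED BY A
FROBENIUS MODULO INERTIA, AT EVERY FINITE LEVEL.  Prefix `s56ld_`.

`A` a valuation ring of `Q̄` over the prime `q`, `φ` a Frobenius at `A`, `L/ℚ` finite.  Then every
`d` in the decomposition group of `A` can be written `d = φ ^ n * i * s` with `n : ℕ`, `i` in the
inertia group of `A` and `s ∈ Gal(Q̄/L)` (`s56ld_frob_gen`).

Proof: on the normal closure `K` of `L`, the image of `d` in `Gal(K/ℚ)` stabilises the prime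
`P = 𝔪_A ∩ 𝓞 K` and acts on the finite field `𝓞 K ⧸ P` as a power of the Frobenius
(`s56ld_ringAut_pow`, from Mathlib's `FiniteField.bijective_frobeniusAlgEquivOfAlgebraic_pow`); so
`φ ^ (-n) d` lies in the inertia group of `P`, which is the image of the inertia group of `A`
(`pl_map_inertia`, S55/Places).
-/
import Mathlib
import Fermat.Agent.S55.Places.Galois
import Fermat.Agent.MZ.F3.TameFrobAt

set_option autoImplicit false
set_option linter.unusedSectionVars false
set_option linter.style.haveILetI false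

noncomputable section

namespace Fermat.Agent.S56

open Fermat.Agent.MZ Fermat.Agent.S55 Fermat.Agent.S54 Fermat.Agent.S14.Reduction NumberField
open scoped Pointwise

attribute [local instance] Fermat.Agent.S54.galAction
attribute [local instance] Fermat.Agent.S14.Reduction.algebraIntQbar

local notation "Qb" => AlgebraicClosure ℚ
local notation "GQ" => (AlgebraicClosure ℚ ≃ₐ[ℚ] AlgebraicClosure ℚ)

/-- a ring automorphism of a finite field of characteristic `q` is a power of the Frobenius. -/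
theorem s56ld_ringAut_pow {F : Type*} [Field F] [Finite F] (q : ℕ) [Fact q.Prime] [CharP F q]
    (e : F ≃+* F) : ∃ n : ℕ, ∀ x : F, e x = x ^ q ^ n := by
  letI := ZMod.algebra F q
  let e' : F ≃ₐ[ZMod q] F := AlgEquiv.ofRingEquiv (f := e) (fun x => by
    have : (e : F →+* F).comp (algebraMap (ZMod q) F) = algebraMap (ZMod q) F :=
      Subsingleton.elim _ _
    exact DFunLike.congr_fun this x)
  obtain ⟨n, hn⟩ := (FiniteField.bijective_frobeniusAlgEquivOfAlgebraic_pow (ZMod q) F).2 e'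
  refine ⟨n, fun x => ?_⟩
  have h1 : e x = e' x := rfl
  rw [h1, ← hn]
  simp only
  rw [AlgEquiv.coe_pow, FiniteField.coe_frobeniusAlgEquivOfAlgebraic_iterate, ZMod.card]

section Level

variable (K : IntermediateField ℚ Qb) [FiniteDimensional ℚ K] [IsGalois ℚ K] [NumberField K]
  (A : ValuationSubring Qb) {q : ℕ} (hq : q.Prime) (hA : A.LiesOverPrime q)

include hq hA in
/-- an element of the stabiliser of `P = 𝔪_A ∩ 𝓞 K` acts on `𝓞 K ⧸ P` as a power of Frobenius. -/
theorem s56ld_stab_pow (g : K ≃ₐ[ℚ] K) (hg : g • pl_ideal K A = pl_ideal K A) :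
    ∃ n : ℕ, ∀ x : 𝓞 K, g • x - x ^ q ^ n ∈ pl_ideal K A := by
  classical
  haveI : Fact q.Prime := ⟨hq⟩
  set P := pl_ideal K A with hP
  haveI : P.IsMaximal := Ideal.IsPrime.isMaximal inferInstance (pl_ideal_ne_bot K A hq hA)
  letI : Field (𝓞 K ⧸ P) := Ideal.Quotient.field P
  haveI : CharP (𝓞 K ⧸ P) q := by
    rw [CharP.charP_iff_prime_eq_zero hq]
    have h1 := pl_natCast_mem_ideal K A hA
    have h2 : ((q : ℕ) : 𝓞 K ⧸ P) = Ideal.Quotient.mk P ((q : ℕ) : 𝓞 K) := by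
      rw [map_natCast]
    rw [h2, Ideal.Quotient.eq_zero_iff_mem]
    exact h1
  let e : 𝓞 K ≃+* 𝓞 K := MulSemiringAction.toRingEquiv (K ≃ₐ[ℚ] K) (𝓞 K) g
  have hmap : P = P.map (e : 𝓞 K →+* 𝓞 K) := by
    have h1 : g • P = P.map (e : 𝓞 K →+* 𝓞 K) := rfl
    rw [← h1, hg]
  let φr : (𝓞 K ⧸ P) ≃+* (𝓞 K ⧸ P) := Ideal.quotientEquiv P P e hmap
  have hφr : ∀ b : 𝓞 K, φr (Ideal.Quotient.mk P b) = Ideal.Quotient.mk P (g • b) :=
    fun b => Ideal.quotientEquiv_mk P P e hmap b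
  obtain ⟨n, hn⟩ := s56ld_ringAut_pow q φr
  refine ⟨n, fun x => ?_⟩
  have h1 := hn (Ideal.Quotient.mk P x)
  rw [hφr, ← map_pow] at h1
  exact Ideal.Quotient.eq.mp h1

include hq hA in
/-- a Frobenius at `A` acts as `x ↦ x ^ q` on `𝓞 K ⧸ P`. -/
theorem s56ld_frob_OK {φ : GQ} (hφ : ∀ a ∈ A, φ a - a ^ q ∈ A.nonunits) (x : 𝓞 K) :
    AlgEquiv.restrictNormalHom K φ • x - x ^ q ∈ pl_ideal K A := by
  rw [pl_mem_ideal]
  have h1 : ((toIntQbar K x : intQbar) : Qb) ∈ A := pl_intQbar_le A (toIntQbar K x)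
  have h2 := hφ _ h1
  rw [ValuationSubring.mem_nonunits_iff] at h2
  convert h2 using 2
  have h3 := pl_smul_toIntQbar K φ x
  have h4 := congrArg (fun b : intQbar => (b : Qb)) h3
  simp only [coe_galAction_smul, coe_toIntQbar] at h4
  simp only [coe_toIntQbar]
  push_cast
  rw [h4]
  rfl

include hq hA in
/-- the powers of a Frobenius at `A` act as `x ↦ x ^ q ^ n` on `𝓞 K ⧸ P`. -/
theorem s56ld_frob_pow_OK {φ : GQ} (hφA : φ • A = A) (hφ : ∀ a ∈ A, φ a - a ^ q ∈ A.nonunits)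
    (n : ℕ) (x : 𝓞 K) :
    AlgEquiv.restrictNormalHom K φ ^ n • x - x ^ q ^ n ∈ pl_ideal K A := by
  set f := AlgEquiv.restrictNormalHom K φ with hf
  have hfP : f • pl_ideal K A = pl_ideal K A := by rw [← pl_ideal_smul, hφA]
  induction n with
  | zero => simp
  | succ n ih =>
    have h1 : f ^ (n + 1) • x - x ^ q ^ (n + 1) =
        f • (f ^ n • x - x ^ q ^ n) + (f • (x ^ q ^ n) - (x ^ q ^ n) ^ q) := by
      rw [pow_succ' f, mul_smul, smul_sub, pow_succ q, pow_mul]
      ring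
    rw [h1]
    refine Ideal.add_mem _ ?_ (s56ld_frob_OK K A hq hA hφ _)
    have h2 := Ideal.smul_mem_pointwise_smul f _ (pl_ideal K A) ih
    rwa [hfP] at h2

include hq hA in
/-- **Frobenius generation, normal level**: `d = φ ^ n * i * s`. -/
theorem s56ld_frob_gen_normal {φ : GQ} (hφA : φ • A = A)
    (hφ : ∀ a ∈ A, φ a - a ^ q ∈ A.nonunits) {d : GQ} (hd : d • A = A) :
    ∃ n : ℕ, ∃ i ∈ A.inertiaSubgroupIn ℚ, ∃ s ∈ K.fixingSubgroup, d = φ ^ n * i * s := by
  set res := AlgEquiv.restrictNormalHom (F := ℚ) (K₁ := Qb) K with hres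
  set f := res φ with hf
  set g := res d with hg
  set P := pl_ideal K A with hP
  have hfP : f • P = P := by rw [hP, ← pl_ideal_smul, hφA]
  have hgP : g • P = P := by rw [hP, ← pl_ideal_smul, hd]
  obtain ⟨n, hn⟩ := s56ld_stab_pow K A hq hA g hgP
  have hfn := s56ld_frob_pow_OK K A hq hA hφA hφ n
  have hfnP : (f ^ n)⁻¹ • P = P := by
    have h1 : f ∈ MulAction.stabilizer (K ≃ₐ[ℚ] K) P := hfP
    have h2 : (f ^ n)⁻¹ ∈ MulAction.stabilizer (K ≃ₐ[ℚ] K) P := inv_mem (pow_mem h1 n)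
    exact h2
  have hin : (f ^ n)⁻¹ * g ∈ P.toAddSubgroup.inertia (K ≃ₐ[ℚ] K) := by
    rw [AddSubgroup.mem_inertia]
    intro x
    have h1 : g • x - f ^ n • x ∈ P := by
      have := Ideal.sub_mem _ (hn x) (hfn x)
      rwa [sub_sub_sub_cancel_right] at this
    have h2 := Ideal.smul_mem_pointwise_smul (f ^ n)⁻¹ _ P h1
    rw [hfnP, smul_sub, inv_smul_smul, ← mul_smul] at h2
    exact h2
  rw [hP, ← pl_map_inertia K A hq hA] at hin
  obtain ⟨i, hi, hresi⟩ := hin
  refine ⟨n, i, hi, i⁻¹ * (φ ^ n)⁻¹ * d, ?_, by group⟩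
  have h1 : res (i⁻¹ * (φ ^ n)⁻¹ * d) = 1 := by
    rw [map_mul, map_mul, map_inv, map_inv, map_pow, hresi, ← hf, ← hg]
    group
  have h2 : i⁻¹ * (φ ^ n)⁻¹ * d ∈ res.ker := h1
  rwa [hres, ker_restrictNormalHom] at h2

end Level

section General

variable (A : ValuationSubring Qb) {q : ℕ} (hq : q.Prime) (hA : A.LiesOverPrime q)

include hq hA in
/-- **Frobenius generation**: for every finite level `L`, every `d` in the decomposition group of
`A` is `φ ^ n * i * s` with `i` in the inertia group and `s` fixing `L`. -/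
theorem s56ld_frob_gen (L : IntermediateField ℚ Qb) [FiniteDimensional ℚ L] {φ : GQ}
    (hφA : φ • A = A) (hφ : ∀ a ∈ A, φ a - a ^ q ∈ A.nonunits) {d : GQ} (hd : d • A = A) :
    ∃ n : ℕ, ∃ i ∈ A.inertiaSubgroupIn ℚ, ∃ s ∈ L.fixingSubgroup, d = φ ^ n * i * s := by
  haveI : Algebra.IsAlgebraic ℚ Qb := AlgebraicClosure.isAlgebraic ℚ
  haveI : IsAlgClosure ℚ Qb := ⟨inferInstance, inferInstance⟩
  haveI : Normal ℚ Qb := IsAlgClosure.normal ℚ Qb
  set K := IntermediateField.normalClosure ℚ ↥L Qb with hK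
  haveI : Normal ℚ ↥K := normalClosure.normal ℚ ↥L Qb
  haveI : FiniteDimensional ℚ ↥K := normalClosure.is_finiteDimensional ℚ ↥L Qb
  haveI : IsGalois ℚ ↥K := ⟨⟩
  haveI : NumberField ↥K := { to_charZero := inferInstance, to_finiteDimensional := inferInstance }
  obtain ⟨n, i, hi, s, hs, h⟩ := s56ld_frob_gen_normal K A hq hA hφA hφ hd
  exact ⟨n, i, hi, s,
    IntermediateField.fixingSubgroup_antitone (IntermediateField.le_normalClosure L) hs, h⟩

/-- the same for the Prelude's Frobenius predicate. -/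
theorem s56ld_frob_gen' (L : IntermediateField ℚ Qb) [FiniteDimensional ℚ L] {φ : GQ}
    (hφ : A.IsFrobeniusAt φ q) (hq : q.Prime) (hA : A.LiesOverPrime q) {d : GQ}
    (hd : d ∈ A.decompositionSubgroup ℚ) :
    ∃ n : ℕ, ∃ i ∈ A.inertiaSubgroupIn ℚ, ∃ s ∈ L.fixingSubgroup, d = φ ^ n * i * s :=
  s56ld_frob_gen A hq hA L (mzf3_tfa_unfold A hφ).1 (mzf3_tfa_unfold A hφ).2
    (MulAction.mem_stabilizer_iff.1 hd)

end General

end Fermat.Agent.S56
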