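/-
S56, local toolkit at a prime `q ≠ p` (helper7), file 1: THE WILD ELEMENT, `f`-free form.
Prefix `s56ld_`.

`A` a valuation ring of `Q̄` over the prime `q`, `I = A.inertiaSubgroupIn ℚ`, `φ ∈ G_ℚ` with
`φ • A = A` and `φ a ≡ a ^ q mod 𝔪_A` (a Frobenius at `A`), `σ ∈ I`.  Then the element
`c = φ σ φ⁻¹ (σ ^ q)⁻¹ ∈ I` is WILD: for every finite level `L1` some power `c ^ (q ^ a)` is
trivial on `L1` (`s56ld_wild`).  This is the `f`-free core of helper26's `mzf3_tfq_conj`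
(`MZ/F3/TameFrobQ.lean`, whose proof is reused almost verbatim); it gives the tame-Frobenius
relation for homomorphisms defined on the inertia group ONLY (`s56ld_conj_I`), which is what local
cocycles (defined on the decomposition group only) need.
-/
import Mathlib
import Fermat.Agent.MZ.F3.TameFrobQ
import Fermat.Agent.MZ.F3.TameFrobAt

set_option autoImplicit false
set_option linter.unusedSectionVars false
set_option linter.style.haveILetI false

noncomputable section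

namespace Fermat.Agent.S56

open Fermat.Agent.MZ Fermat.Agent.JT3 Fermat.Agent.S55 IsLocalRing
open scoped Pointwise

local notation "Qb" => AlgebraicClosure ℚ
local notation "GQ" => (AlgebraicClosure ℚ ≃ₐ[ℚ] AlgebraicClosure ℚ)

section Normal

variable (A : ValuationSubring Qb) {q : ℕ} (hq : q.Prime) (hA : A.LiesOverPrime q)
  (L1 : IntermediateField ℚ Qb) [FiniteDimensional ℚ L1] [Normal ℚ L1]

include hq hA in
/-- **the wild element, normal level**: `(φ σ φ⁻¹ (σ ^ q)⁻¹) ^ (q ^ a)` is trivial on `L1`. -/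
theorem s56ld_wild_normal {φ : GQ} (hφA : φ • A = A) (hφ : ∀ a ∈ A, φ a - a ^ q ∈ A.nonunits)
    {σ : GQ} (hσ : σ ∈ A.inertiaSubgroupIn ℚ) :
    ∃ a : ℕ, ∀ y ∈ L1, ((φ * σ * φ⁻¹ * (σ ^ q)⁻¹) ^ q ^ a) y = y := by
  classical
  haveI : Fact q.Prime := ⟨hq⟩
  haveI : NumberField ↥L1 := { to_charZero := inferInstance, to_finiteDimensional := inferInstance }
  set O := A.comap (algebraMap L1 Qb) with hO
  haveI : IsDiscreteValuationRing ↥O := dsc_isDVR_comap_numberField A q hA hq.ne_zero ↥L1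
  set res : GQ →* (L1 ≃ₐ[ℚ] L1) := AlgEquiv.restrictNormalHom L1 with hres
  have hcomm : ∀ (τ : GQ) (x : L1), algebraMap L1 Qb (res τ x) = τ (algebraMap L1 Qb x) :=
    fun τ x => AlgEquiv.restrictNormal_commutes τ L1 x
  -- the finite group `D'` acting on `O`
  let D' : Subgroup (L1 ≃ₐ[ℚ] L1) := mzf3_tfq_D (K := ℚ) O
  let ι : ↥D' →* (L1 ≃ₐ[ℚ] L1) := D'.subtype
  have hpres : ∀ (g : ↥D') (x : ↥L1), x ∈ O → ι g x ∈ O := fun g x hx => (g.2 x).1 hx
  letI := mzf3_actO O ι hpres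
  haveI : FaithfulSMul ↥D' ↥O := ⟨fun {g h} hgh => by
    apply Subtype.ext
    apply AlgEquiv.ext
    intro y
    show ι g y = ι h y
    by_cases hy : y ∈ O
    · exact congrArg Subtype.val (hgh ⟨y, hy⟩)
    · have hy' : y⁻¹ ∈ O := (O.mem_or_inv_mem y).resolve_left hy
      have := congrArg Subtype.val (hgh ⟨y⁻¹, hy'⟩)
      have h2 : ι g y⁻¹ = ι h y⁻¹ := this
      rw [map_inv₀, map_inv₀] at h2
      exact inv_injective h2⟩
  -- `res σ` and `res φ` lie in `D'`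
  have hσinv : σ⁻¹ ∈ A.inertiaSubgroupIn ℚ := inv_mem hσ
  have hσD : res σ ∈ D' := by
    intro x
    constructor
    · intro hx
      exact (mzf3_res_inert A L1 σ hσ x hx).1
    · intro hx
      have h1 := (mzf3_res_inert A L1 σ⁻¹ hσinv _ hx).1
      have e : res σ⁻¹ (res σ x) = x := by
        rw [map_inv]
        exact AlgEquiv.symm_apply_apply (res σ) x
      rwa [e] at h1
  have hφD : res φ ∈ D' := by
    intro x
    show algebraMap L1 Qb x ∈ A ↔ algebraMap L1 Qb (res φ x) ∈ A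
    rw [hcomm]
    exact mzf3_tfq_mem_iff A hφA _
  let σ' : ↥D' := ⟨res σ, hσD⟩
  let φ' : ↥D' := ⟨res φ, hφD⟩
  have hσtriv : mzf3_tf_Triv (R := ↥O) σ' := by
    intro x
    rw [← ValuationSubring.coe_mem_nonunits_iff]
    exact (mzf3_res_inert A L1 σ hσ x x.2).2
  have hφfrob : ∀ x : ↥O, φ' • x - x ^ q ∈ maximalIdeal ↥O := by
    intro x
    rw [← ValuationSubring.coe_mem_nonunits_iff]
    show res φ (x : L1) - (x : L1) ^ q ∈ O.nonunits
    rw [dsc_mem_comap_nonunits_iff, map_sub, map_pow, hcomm]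
    exact hφ _ x.2
  have hpO : ((q : ℕ) : ↥O) ∈ maximalIdeal ↥O := by
    rw [← ValuationSubring.coe_mem_nonunits_iff]
    show ((q : ℕ) : L1) ∈ O.nonunits
    rw [dsc_mem_comap_nonunits_iff, map_natCast]
    exact hA
  -- the wild element
  obtain ⟨t, ht⟩ := IsDiscreteValuationRing.exists_irreducible ↥O
  have hw := mzf3_tf_wild ht hσtriv q hφfrob
  obtain ⟨a, ha⟩ := mzf3_tf_orderOf_wild ht q hpO hw
  set c : GQ := φ * σ * φ⁻¹ * (σ ^ q)⁻¹ with hc
  have hresc : res c = ι (φ' * σ' * φ'⁻¹ * (σ' ^ q)⁻¹) := by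
    rw [hc, map_mul, map_mul, map_mul, map_inv, map_inv, map_pow, map_mul, map_mul, map_mul,
      map_inv, map_inv, map_pow]
    rfl
  have hcpow : res (c ^ q ^ a) = 1 := by
    rw [map_pow, hresc, ← map_pow, ← ha, pow_orderOf_eq_one, map_one]
  refine ⟨a, fun y hy => ?_⟩
  have h1 := hcomm (c ^ q ^ a) ⟨y, hy⟩
  rw [hcpow] at h1
  exact h1.symm

end Normal

section General

variable (A : ValuationSubring Qb) {q : ℕ} (hq : q.Prime) (hA : A.LiesOverPrime q)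

include hq hA in
/-- **the wild element, arbitrary finite level.** -/
theorem s56ld_wild (L1 : IntermediateField ℚ Qb) [FiniteDimensional ℚ L1]
    {φ : GQ} (hφA : φ • A = A) (hφ : ∀ a ∈ A, φ a - a ^ q ∈ A.nonunits)
    {σ : GQ} (hσ : σ ∈ A.inertiaSubgroupIn ℚ) :
    ∃ a : ℕ, ∀ y ∈ L1, ((φ * σ * φ⁻¹ * (σ ^ q)⁻¹) ^ q ^ a) y = y := by
  haveI : Algebra.IsAlgebraic ℚ Qb := AlgebraicClosure.isAlgebraic ℚ
  haveI : IsAlgClosure ℚ Qb := ⟨inferInstance, inferInstance⟩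
  haveI : Normal ℚ Qb := IsAlgClosure.normal ℚ Qb
  haveI : Normal ℚ ↥(IntermediateField.normalClosure ℚ ↥L1 Qb) := normalClosure.normal ℚ ↥L1 Qb
  obtain ⟨a, ha⟩ := s56ld_wild_normal A hq hA (IntermediateField.normalClosure ℚ ↥L1 Qb)
    hφA hφ hσ
  exact ⟨a, fun y hy => ha y (IntermediateField.le_normalClosure L1 hy)⟩

/-- the wild element lies in the inertia group. -/
theorem s56ld_wild_mem {φ : GQ} (hφA : φ • A = A) {σ : GQ} (hσ : σ ∈ A.inertiaSubgroupIn ℚ) :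
    φ * σ * φ⁻¹ * (σ ^ q)⁻¹ ∈ A.inertiaSubgroupIn ℚ :=
  mul_mem (mzf3_tfq_conj_mem A hφA hσ) (inv_mem (pow_mem hσ q))

include hq hA in
/-- **the tame-Frobenius relation for homomorphisms defined on the inertia group only.**
`g : I →* H` of finite level, all values of order prime to `q`: `g (φ σ φ⁻¹) = g σ ^ q`. -/
theorem s56ld_conj_I {H : Type*} [Group H] (L1 : IntermediateField ℚ Qb) [FiniteDimensional ℚ L1]
    (g : ↥(A.inertiaSubgroupIn ℚ) →* H)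
    (hL1 : ∀ σ : ↥(A.inertiaSubgroupIn ℚ), (∀ y ∈ L1, (σ : GQ) y = y) → g σ = 1)
    (hcop : ∀ σ : ↥(A.inertiaSubgroupIn ℚ), (orderOf (g σ)).Coprime q)
    {φ : GQ} (hφA : φ • A = A) (hφ : ∀ a ∈ A, φ a - a ^ q ∈ A.nonunits)
    (σ : ↥(A.inertiaSubgroupIn ℚ)) :
    g ⟨φ * (σ : GQ) * φ⁻¹, mzf3_tfq_conj_mem A hφA σ.2⟩ = g σ ^ q := by
  obtain ⟨a, ha⟩ := s56ld_wild A hq hA L1 hφA hφ σ.2
  set c : ↥(A.inertiaSubgroupIn ℚ) :=
    ⟨φ * (σ : GQ) * φ⁻¹ * ((σ : GQ) ^ q)⁻¹, s56ld_wild_mem A hφA σ.2⟩ with hc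
  have hfc : g c ^ q ^ a = 1 := by
    rw [← map_pow]
    apply hL1
    intro y hy
    exact ha y hy
  have h2 : orderOf (g c) ∣ q ^ a := orderOf_dvd_of_pow_eq_one hfc
  have h3 : (orderOf (g c)).Coprime (q ^ a) := (hcop c).pow_right a
  have h4 : orderOf (g c) = 1 := Nat.Coprime.eq_one_of_dvd h3 h2
  have h5 : g c = 1 := orderOf_eq_one_iff.1 h4
  have h6 : (⟨φ * (σ : GQ) * φ⁻¹, mzf3_tfq_conj_mem A hφA σ.2⟩ : ↥(A.inertiaSubgroupIn ℚ)) =
      c * σ ^ q := by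
    apply Subtype.ext
    show φ * (σ : GQ) * φ⁻¹ = φ * (σ : GQ) * φ⁻¹ * ((σ : GQ) ^ q)⁻¹ * (σ : GQ) ^ q
    rw [inv_mul_cancel_right]
  rw [h6, map_mul, h5, one_mul, map_pow]

include hq hA in
/-- the same for the Prelude's Frobenius predicate. -/
theorem s56ld_conj_I' {H : Type*} [Group H] (L1 : IntermediateField ℚ Qb)
    [FiniteDimensional ℚ L1] (g : ↥(A.inertiaSubgroupIn ℚ) →* H)
    (hL1 : ∀ σ : ↥(A.inertiaSubgroupIn ℚ), (∀ y ∈ L1, (σ : GQ) y = y) → g σ = 1)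
    (hcop : ∀ σ : ↥(A.inertiaSubgroupIn ℚ), (orderOf (g σ)).Coprime q)
    {φ : GQ} (hφ : A.IsFrobeniusAt φ q) (σ : ↥(A.inertiaSubgroupIn ℚ)) :
    g ⟨φ * (σ : GQ) * φ⁻¹, mzf3_tfq_conj_mem A (mzf3_tfa_unfold A hφ).1 σ.2⟩ = g σ ^ q :=
  s56ld_conj_I A hq hA L1 g hL1 hcop (mzf3_tfa_unfold A hφ).1 (mzf3_tfa_unfold A hφ).2 σ

end General

end Fermat.Agent.S56
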