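/-
S56, local toolkit at a prime `q ≠ p` (helper7), file 2: LEVEL-CONSTANT COCYCLES ON A GROUP MAPPING
ONTO (A SUBGROUP CONTAINING) THE INERTIA GROUP.  Prefix `s56ld_`.

Setting: `r : G →* G_ℚ` a group homomorphism (e.g. the local Galois group `G = Gal(Q̄_q/ℚ_q)` with
`r = primeLocalToGlobal q`, or a decomposition subgroup with its inclusion), `A` a valuation ring
of `Q̄` over the prime `q`, `I = A.inertiaSubgroupIn ℚ ⊆ r(G)`; `M` an `𝔽_p`-vector space with an
action `ρ` of `G_ℚ` which is trivial on `I` (`M` unramified at `A`), `p ≠ q`.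
For a level-constant 1-cocycle `c : G → M` (`s56ld_Coc`):

* `s56ld_coc_congr` : `c g` only depends on `r g`;
* `s56ld_gI` : the homomorphism `I → (M, +)` induced by `c`, of finite level (`s56ld_gI_level`),
  killed by `p` (`s56ld_gI_pow`);
* `s56ld_coc_conj` : `c (d s d⁻¹) = ρ (r d) (c s)` for `r s ∈ I`;
* `s56ld_coc_frob` : `ρ φ (c s) = q • c s` for `r s ∈ I`, `φ ∈ r(G)` a Frobenius at `A`
  (tame-Frobenius relation `s56ld_conj_I`);
* `s56ld_common` : a finite family of such cocycles has a COMMON tame generator: `τ` with `r τ ∈ I`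
  such that for every `s` with `r s ∈ I` there is ONE `k : ℤ` with `c i s = k • c i τ` for all `i`;
* `s56ld_indep` : the package used for the count of ramified classes at the Taylor–Wiles primes:
  the values `c i τ` lie in `ker (ρ φ - q)` and a linear combination of the `c i` vanishing at `τ`
  vanishes on all of `r⁻¹(I)`.
-/
import Mathlib
import Fermat.Prelude.Def_GroupCohomology_ContinuousH2
import Fermat.Agent.MZ.F3.TameCyclic
import Fermat.Agent.S56.LocD.Wild

set_option autoImplicit false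
set_option linter.unusedSectionVars false
set_option linter.style.haveILetI false

noncomputable section

namespace Fermat.Agent.S56

open Fermat.Agent.MZ Fermat.Agent.S55 groupCohomology
open scoped Pointwise

local notation "Qb" => AlgebraicClosure ℚ
local notation "GQ" => (AlgebraicClosure ℚ ≃ₐ[ℚ] AlgebraicClosure ℚ)

universe u

section Basic

variable {G : Type u} [Group G] (r : G →* GQ) {p : ℕ} [Fact p.Prime]
  {M : Type*} [AddCommGroup M] [Module (ZMod p) M] (ρ : Representation (ZMod p) GQ M)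

/-- `c : G → M` is a level-constant 1-cocycle (`G` acting on `M` through `r`). -/
structure s56ld_Coc (c : G → M) : Prop where
  mul : ∀ g h : G, c (g * h) = c g + ρ (r g) (c h)
  level : IsLevelConstant₁ r c

variable {r ρ}

theorem s56ld_coc_one {c : G → M} (hc : s56ld_Coc r ρ c) : c 1 = 0 := by
  have h := hc.mul 1 1
  rw [mul_one, map_one, map_one, Module.End.one_apply] at h
  exact left_eq_add.mp h

theorem s56ld_coc_ker {c : G → M} (hc : s56ld_Coc r ρ c) (g : G) {s : G} (hs : r s = 1) :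
    c (g * s) = c g := by
  obtain ⟨F, _, hF⟩ := hc.level
  exact hF g s (by rw [hs]; exact one_mem _)

/-- a level-constant cocycle only depends on the image in `G_ℚ`. -/
theorem s56ld_coc_congr {c : G → M} (hc : s56ld_Coc r ρ c) {g g' : G} (h : r g = r g') :
    c g = c g' := by
  have h1 : r (g⁻¹ * g') = 1 := by rw [map_mul, map_inv, h, inv_mul_cancel]
  have h2 := s56ld_coc_ker hc g h1
  rw [mul_inv_cancel_left] at h2
  exact h2.symm

theorem s56ld_coc_inv {c : G → M} (hc : s56ld_Coc r ρ c) (g : G) :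
    c g + ρ (r g) (c g⁻¹) = 0 := by
  rw [← hc.mul, mul_inv_cancel, s56ld_coc_one hc]

/-- sums and scalar multiples of level-constant cocycles. -/
theorem s56ld_coc_sum {ι : Type*} (s : Finset ι) (a : ι → ZMod p) {c : ι → G → M}
    (hc : ∀ i, s56ld_Coc r ρ (c i)) : s56ld_Coc r ρ (fun g => ∑ i ∈ s, a i • c i g) := by
  classical
  constructor
  · intro g h
    simp only [(hc _).mul, smul_add, Finset.sum_add_distrib, map_sum, map_smul]
  · induction s using Finset.induction_on with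
    | empty =>
      simp only [Finset.sum_empty]
      exact isLevelConstant₁_const r (0 : M)
    | insert i s hi ih =>
      have h1 : IsLevelConstant₁ r (fun g => a i • c i g) := (hc i).level.comp (a i • ·)
      have h2 := h1.add ih
      convert h2 using 1
      funext g
      simp only [Finset.sum_insert hi, Pi.add_apply]

end Basic

section Inertia

variable {G : Type u} [Group G] {r : G →* GQ} {p : ℕ} [Fact p.Prime]
  {M : Type*} [AddCommGroup M] [Module (ZMod p) M] {ρ : Representation (ZMod p) GQ M}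
  (A : ValuationSubring Qb)
  (hI : ∀ σ ∈ A.inertiaSubgroupIn ℚ, ∃ g : G, r g = σ)
  (hρ : ∀ σ ∈ A.inertiaSubgroupIn ℚ, ρ σ = 1)

include hρ in
/-- on `r⁻¹(I)` the cocycle is additive. -/
theorem s56ld_coc_mul_I {c : G → M} (hc : s56ld_Coc r ρ c) {g : G}
    (hg : r g ∈ A.inertiaSubgroupIn ℚ) (h : G) : c (g * h) = c g + c h := by
  rw [hc.mul, hρ _ hg, Module.End.one_apply]

include hρ in
/-- `c (d s d⁻¹) = ρ (r d) (c s)` for `r s ∈ I`. -/
theorem s56ld_coc_conj {c : G → M} (hc : s56ld_Coc r ρ c) (d : G) {s : G}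
    (hs : r s ∈ A.inertiaSubgroupIn ℚ) : c (d * s * d⁻¹) = ρ (r d) (c s) := by
  have h1 : c (d * s * d⁻¹) = c d + ρ (r d) (c s + c d⁻¹) := by
    rw [mul_assoc, hc.mul, s56ld_coc_mul_I A hρ hc hs]
  rw [h1, map_add, add_comm (ρ (r d) (c s)), ← add_assoc, s56ld_coc_inv hc, zero_add]

/-- the homomorphism `I → (M, +)` induced by a level-constant cocycle. -/
def s56ld_gI {c : G → M} (hc : s56ld_Coc r ρ c) :
    ↥(A.inertiaSubgroupIn ℚ) →* Multiplicative M where
  toFun σ := Multiplicative.ofAdd (c (Classical.choose (hI σ σ.2)))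
  map_one' := by
    have h0 := Classical.choose_spec (hI ((1 : ↥(A.inertiaSubgroupIn ℚ)) : GQ)
      (1 : ↥(A.inertiaSubgroupIn ℚ)).2)
    have h1 : r (Classical.choose (hI ((1 : ↥(A.inertiaSubgroupIn ℚ)) : GQ)
        (1 : ↥(A.inertiaSubgroupIn ℚ)).2)) = r 1 := by
      rw [h0, map_one]
      rfl
    rw [s56ld_coc_congr hc h1, s56ld_coc_one hc]
    rfl
  map_mul' σ τ := by
    have h1 : r (Classical.choose (hI (σ * τ) (σ * τ).2)) =
        r (Classical.choose (hI σ σ.2) * Classical.choose (hI τ τ.2)) := by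
      rw [map_mul, Classical.choose_spec (hI σ σ.2), Classical.choose_spec (hI τ τ.2),
        Classical.choose_spec (hI (σ * τ) (σ * τ).2)]
    have h2 : r (Classical.choose (hI σ σ.2)) ∈ A.inertiaSubgroupIn ℚ := by
      rw [Classical.choose_spec (hI σ σ.2)]; exact σ.2
    rw [s56ld_coc_congr hc h1, s56ld_coc_mul_I A hρ hc h2]
    rfl

theorem s56ld_gI_apply {c : G → M} (hc : s56ld_Coc r ρ c) (g : G)
    (hg : r g ∈ A.inertiaSubgroupIn ℚ) :
    s56ld_gI A hI hρ hc ⟨r g, hg⟩ = Multiplicative.ofAdd (c g) := by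
  show Multiplicative.ofAdd (c (Classical.choose (hI (r g) hg))) = _
  rw [s56ld_coc_congr hc (Classical.choose_spec (hI (r g) hg))]

theorem s56ld_gI_apply' {c : G → M} (hc : s56ld_Coc r ρ c) (σ : ↥(A.inertiaSubgroupIn ℚ)) (g : G)
    (hg : r g = σ) : s56ld_gI A hI hρ hc σ = Multiplicative.ofAdd (c g) := by
  have h1 : r g ∈ A.inertiaSubgroupIn ℚ := by rw [hg]; exact σ.2
  have h2 : σ = ⟨r g, h1⟩ := Subtype.ext hg.symm
  rw [h2]
  exact s56ld_gI_apply A hI hρ hc g h1

/-- `p` kills the values. -/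
theorem s56ld_gI_pow {c : G → M} (hc : s56ld_Coc r ρ c) (σ : ↥(A.inertiaSubgroupIn ℚ)) :
    s56ld_gI A hI hρ hc σ ^ p = 1 := by
  obtain ⟨g, hg⟩ := hI σ σ.2
  rw [s56ld_gI_apply' A hI hρ hc σ g hg, ← ofAdd_nsmul]
  have h : (p : ℕ) • c g = 0 := by
    rw [← Nat.cast_smul_eq_nsmul (ZMod p), ZMod.natCast_self, zero_smul]
  rw [h]
  rfl

/-- finite level. -/
theorem s56ld_gI_level {c : G → M} (hc : s56ld_Coc r ρ c) :
    ∃ F : IntermediateField ℚ Qb, FiniteDimensional ℚ F ∧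
      ∀ σ : ↥(A.inertiaSubgroupIn ℚ), (∀ y ∈ F, (σ : GQ) y = y) → s56ld_gI A hI hρ hc σ = 1 := by
  obtain ⟨F, hF, hlev⟩ := hc.level
  refine ⟨F, hF, fun σ hσ => ?_⟩
  obtain ⟨g, hg⟩ := hI σ σ.2
  rw [s56ld_gI_apply' A hI hρ hc σ g hg]
  have h1 : r g ∈ F.fixingSubgroup := by
    rw [hg, IntermediateField.mem_fixingSubgroup_iff]
    exact hσ
  have h2 := hlev 1 g h1
  rw [one_mul, s56ld_coc_one hc] at h2
  rw [h2]
  rfl

end Inertia

section Frob

variable {G : Type u} [Group G] {r : G →* GQ} {p : ℕ} [Fact p.Prime]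
  {M : Type*} [AddCommGroup M] [Module (ZMod p) M] {ρ : Representation (ZMod p) GQ M}
  (A : ValuationSubring Qb)
  (hI : ∀ σ ∈ A.inertiaSubgroupIn ℚ, ∃ g : G, r g = σ)
  (hρ : ∀ σ ∈ A.inertiaSubgroupIn ℚ, ρ σ = 1)
  {q : ℕ} (hq : q.Prime) (hA : A.LiesOverPrime q) (hpq : p ≠ q)

include hI hρ hq hA hpq in
/-- **the tame-Frobenius relation for cocycles**: `ρ φ (c s) = q • c s` for `r s ∈ I` and a
Frobenius `φ ∈ r(G)` at `A`. -/
theorem s56ld_coc_frob {c : G → M} (hc : s56ld_Coc r ρ c) {φ : GQ} (hφA : φ • A = A)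
    (hφ : ∀ a ∈ A, φ a - a ^ q ∈ A.nonunits) (hφr : ∃ f : G, r f = φ) {s : G}
    (hs : r s ∈ A.inertiaSubgroupIn ℚ) : ρ φ (c s) = (q : ZMod p) • c s := by
  obtain ⟨f, hf⟩ := hφr
  obtain ⟨F, hF, hlev⟩ := s56ld_gI_level A hI hρ hc
  haveI := hF
  have hcop : ∀ σ, (orderOf (s56ld_gI A hI hρ hc σ)).Coprime q := by
    intro σ
    have h1 : orderOf (s56ld_gI A hI hρ hc σ) ∣ p :=
      orderOf_dvd_of_pow_eq_one (s56ld_gI_pow A hI hρ hc σ)
    have h2 : p.Coprime q := (Nat.coprime_primes Fact.out hq).2 hpq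
    exact Nat.Coprime.coprime_dvd_left h1 h2
  have h := s56ld_conj_I A hq hA F (s56ld_gI A hI hρ hc) hlev hcop hφA hφ ⟨r s, hs⟩
  have h3 : r (f * s * f⁻¹) = φ * r s * φ⁻¹ := by rw [map_mul, map_mul, map_inv, hf]
  rw [s56ld_gI_apply' A hI hρ hc _ (f * s * f⁻¹) h3, s56ld_gI_apply A hI hρ hc s hs,
    ← ofAdd_nsmul] at h
  have h4 := Multiplicative.ofAdd.injective h
  rw [s56ld_coc_conj A hρ hc f hs, hf] at h4
  rw [h4, Nat.cast_smul_eq_nsmul]

include hI hρ hq hA hpq in
/-- **a common tame generator** for a finite family of level-constant cocycles. -/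
theorem s56ld_common {ι : Type*} [Finite ι] {c : ι → G → M} (hc : ∀ i, s56ld_Coc r ρ (c i)) :
    ∃ t : G, r t ∈ A.inertiaSubgroupIn ℚ ∧ ∀ s : G, r s ∈ A.inertiaSubgroupIn ℚ →
      ∃ k : ℤ, ∀ i, c i s = k • c i t := by
  classical
  let g : ↥(A.inertiaSubgroupIn ℚ) →* (ι → Multiplicative M) :=
    MonoidHom.pi (fun i => s56ld_gI A hI hρ (hc i))
  choose F hF hlev using fun i => s56ld_gI_level A hI hρ (hc i)
  haveI : ∀ i, FiniteDimensional ℚ (F i) := hF
  let L : IntermediateField ℚ Qb := ⨆ i, F i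
  haveI : FiniteDimensional ℚ L := IntermediateField.finiteDimensional_iSup_of_finite
  have hL : ∀ σ : ↥(A.inertiaSubgroupIn ℚ), (∀ y ∈ L, (σ : GQ) y = y) → g σ = 1 := by
    intro σ hσ
    funext i
    exact hlev i σ (fun y hy => hσ y ((le_iSup F i) hy))
  have hpow : ∀ σ : ↥(A.inertiaSubgroupIn ℚ), ∃ n : ℕ, g σ ^ p ^ n = 1 := fun σ =>
    ⟨1, by rw [pow_one]; funext i; exact s56ld_gI_pow A hI hρ (hc i) σ⟩
  obtain ⟨τ, hτ⟩ := mzf3_cyclic_I' A hq hA (Fact.out : p.Prime) hpq L g hL hpow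
  obtain ⟨t, ht⟩ := hI τ τ.2
  refine ⟨t, by rw [ht]; exact τ.2, fun s hs => ?_⟩
  obtain ⟨k, hk⟩ := Subgroup.mem_zpowers_iff.1 (hτ ⟨r s, hs⟩)
  refine ⟨k, fun i => ?_⟩
  have h1 := congrFun hk i
  change s56ld_gI A hI hρ (hc i) τ ^ k = s56ld_gI A hI hρ (hc i) ⟨r s, hs⟩ at h1
  rw [s56ld_gI_apply' A hI hρ (hc i) τ t ht, s56ld_gI_apply A hI hρ (hc i) s hs,
    ← ofAdd_zsmul] at h1
  exact (Multiplicative.ofAdd.injective h1).symm

include hI hρ hq hA hpq in
/-- **the package for the count of ramified classes**: for a finite family of level-constant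
cocycles there is `t` with `r t ∈ I` such that all `c i t` lie in `ker (ρ φ - q)` and every linear
combination of the `c i` vanishing at `t` vanishes on `r⁻¹(I)`. -/
theorem s56ld_indep {ι : Type*} [Fintype ι] {c : ι → G → M} (hc : ∀ i, s56ld_Coc r ρ (c i))
    {φ : GQ} (hφA : φ • A = A) (hφ : ∀ a ∈ A, φ a - a ^ q ∈ A.nonunits)
    (hφr : ∃ f : G, r f = φ) :
    ∃ t : G, r t ∈ A.inertiaSubgroupIn ℚ ∧ (∀ i, ρ φ (c i t) = (q : ZMod p) • c i t) ∧
      ∀ a : ι → ZMod p, ∑ i, a i • c i t = 0 →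
        ∀ s : G, r s ∈ A.inertiaSubgroupIn ℚ → ∑ i, a i • c i s = 0 := by
  obtain ⟨t, ht, hcom⟩ := s56ld_common A hI hρ hq hA hpq hc
  refine ⟨t, ht, fun i => s56ld_coc_frob A hI hρ hq hA hpq (hc i) hφA hφ hφr ht, ?_⟩
  intro a ha s hs
  obtain ⟨k, hk⟩ := hcom s hs
  have h1 : ∑ i, a i • c i s = k • ∑ i, a i • c i t := by
    rw [Finset.smul_sum]
    refine Finset.sum_congr rfl fun i _ => ?_
    rw [hk i, smul_comm]
  rw [h1, ha, smul_zero]

end Frob

end Fermat.Agent.S56
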