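/-
S56, local toolkit at a prime `q ≠ p` (helper7), file 3: THE COUNT OF RAMIFIED LOCAL CLASSES in the
vocabulary of `S56/GW/Seams.lean`.  Prefix `s56ld_`.

`M : Rep (ZMod p) G_ℚ` finite, unramified at the place `padicPlace q` (`q ≠ p`), `φ` a Frobenius at
that place.  With

* `s56ld_unr M q` : the UNRAMIFIED continuous local classes at `q` (classes of level-constant
  cocycles of the local Galois group vanishing on the preimage of the inertia group),

we prove (`s56ld_cH1_le`): if `s56ld_unr M q` is finite-dimensional then so is `s56gw_cH1 M q` and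

  `dim s56gw_cH1 M q ≤ dim s56ld_unr M q + dim ker (M.ρ φ - q)`.

The linear algebra is `s56ld_la`; the arithmetic input is `s56ld_indep` (`LocD/Cocycle.lean`).
-/
import Mathlib
import Fermat.Agent.S55.Places.Local
import Fermat.Agent.S56.GW.Seams
import Fermat.Agent.S56.LocD.Cocycle

set_option autoImplicit false
set_option linter.unusedSectionVars false
set_option linter.style.haveILetI false

noncomputable section

namespace Fermat.Agent.S56

open Fermat.Agent.MZ Fermat.Agent.S55 groupCohomology CategoryTheory Module ExtCitation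
open scoped Pointwise

local notation "Qb" => AlgebraicClosure ℚ
local notation "GQ" => (AlgebraicClosure ℚ ≃ₐ[ℚ] AlgebraicClosure ℚ)

section LinAlg

variable {K V N : Type*} [Field K] [AddCommGroup V] [Module K V] [AddCommGroup N] [Module K N]

/-- **linear algebra**: `U ≤ W ≤ V`, `U` and `N` finite-dimensional; if every finite family of `W`
admits a family of `N` whose linear relations are relations of the family modulo `U`, then `W` is
finite-dimensional of dimension `≤ dim U + dim N`. -/
theorem s56ld_la (U W : Submodule K V) (hUW : U ≤ W) [FiniteDimensional K U]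
    [FiniteDimensional K N]
    (h : ∀ (n : ℕ) (x : Fin n → V), (∀ i, x i ∈ W) → ∃ y : Fin n → N,
      ∀ a : Fin n → K, ∑ i, a i • y i = 0 → ∑ i, a i • x i ∈ U) :
    FiniteDimensional K W ∧ finrank K W ≤ finrank K U + finrank K N := by
  classical
  set U' : Submodule K ↥W := U.comap W.subtype with hU'
  have e : ↥U' ≃ₗ[K] ↥U := Submodule.comapSubtypeEquivOfLe hUW
  haveI : FiniteDimensional K ↥U' := Module.Finite.equiv e.symm
  have hrank : Module.rank K (↥W ⧸ U') ≤ (finrank K N : ℕ) := by
    apply rank_le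
    intro s hs
    set n := s.card with hn
    let f : Fin n ≃ ↥s := s.equivFin.symm
    have hli : LinearIndependent K (fun j : Fin n => ((f j : ↥s) : ↥W ⧸ U')) :=
      hs.comp f f.injective
    -- lifts
    have hsurj : ∀ j : Fin n, ∃ w : ↥W, U'.mkQ w = ((f j : ↥s) : ↥W ⧸ U') :=
      fun j => Submodule.mkQ_surjective U' _
    choose w hw using hsurj
    obtain ⟨y, hy⟩ := h n (fun j => (w j : V)) (fun j => (w j).2)
    have hliy : LinearIndependent K y := by
      rw [Fintype.linearIndependent_iff]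
      intro a ha
      have h1 := hy a ha
      rw [Fintype.linearIndependent_iff] at hli
      apply hli a
      have h2 : ∑ j, a j • ((f j : ↥s) : ↥W ⧸ U') = U'.mkQ (∑ j, a j • w j) := by
        rw [map_sum]
        refine Finset.sum_congr rfl fun j _ => ?_
        rw [map_smul, hw]
      rw [h2, Submodule.mkQ_apply, Submodule.Quotient.mk_eq_zero, hU', Submodule.mem_comap]
      have h3 : W.subtype (∑ j, a j • w j) = ∑ j, a j • (w j : V) := by
        rw [map_sum]
        refine Finset.sum_congr rfl fun j _ => ?_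
        rw [map_smul]; rfl
      rw [h3]
      exact h1
    have := hliy.fintype_card_le_finrank
    rwa [Fintype.card_fin] at this
  haveI : FiniteDimensional K (↥W ⧸ U') :=
    Module.rank_lt_aleph0_iff.1 (lt_of_le_of_lt hrank Cardinal.natCast_lt_aleph0)
  haveI : FiniteDimensional K ↥W := Module.Finite.of_submodule_quotient U'
  refine ⟨inferInstance, ?_⟩
  have h1 := Submodule.finrank_quotient_add_finrank U'
  have h2 : finrank K (↥W ⧸ U') ≤ finrank K N := Module.finrank_le_of_rank_le hrank
  have h3 : finrank K ↥U' = finrank K ↥U := e.finrank_eq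
  omega

end LinAlg

section Local

variable {p : ℕ} [Fact p.Prime]

/-- the level-constant cocycles of the local Galois group at `q` that vanish on the preimage of
the inertia group of `primeLocalPlace q`. -/
def s56ld_unrCoc (M : Rep.{0} (ZMod p) GQ) (q : Nat.Primes) :
    Submodule (ZMod p) (cocycles₁ (s56gw_res M q)) where
  carrier := {c | IsLevelConstant₁ (primeLocalToGlobal q) c ∧
    ∀ g, primeLocalToGlobal q g ∈ (primeLocalPlace q).inertiaSubgroupIn ℚ → c g = 0}
  add_mem' {c c'} hc hc' := ⟨hc.1.add hc'.1, fun g hg => by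
    show c.1 g + c'.1 g = 0
    have h1 : c.1 g = 0 := hc.2 g hg
    have h2 : c'.1 g = 0 := hc'.2 g hg
    rw [h1, h2, add_zero]⟩
  zero_mem' := ⟨isLevelConstant₁_const _ (0 : M), fun _ _ => rfl⟩
  smul_mem' a c hc := ⟨hc.1.comp (a • ·), fun g hg => by
    show a • c.1 g = 0
    have h1 : c.1 g = 0 := hc.2 g hg
    rw [h1, smul_zero]⟩

/-- **the unramified continuous local classes** at `q`. -/
def s56ld_unr (M : Rep.{0} (ZMod p) GQ) (q : Nat.Primes) :
    Submodule (ZMod p) (H1 (s56gw_res M q)) :=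
  (s56ld_unrCoc M q).map (H1π (s56gw_res M q)).hom

theorem s56ld_mem_unr_iff (M : Rep.{0} (ZMod p) GQ) (q : Nat.Primes) (x : H1 (s56gw_res M q)) :
    x ∈ s56ld_unr M q ↔ ∃ c : cocycles₁ (s56gw_res M q),
      IsLevelConstant₁ (primeLocalToGlobal q) c ∧
      (∀ g, primeLocalToGlobal q g ∈ (primeLocalPlace q).inertiaSubgroupIn ℚ → c g = 0) ∧
      (H1π (s56gw_res M q)).hom c = x := by
  constructor
  · rintro ⟨c, hc, rfl⟩
    exact ⟨c, hc.1, hc.2, rfl⟩
  · rintro ⟨c, h1, h2, rfl⟩
    exact ⟨c, ⟨h1, h2⟩, rfl⟩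

theorem s56ld_unr_le (M : Rep.{0} (ZMod p) GQ) (q : Nat.Primes) :
    s56ld_unr M q ≤ s56gw_cH1 M q := by
  intro x hx
  obtain ⟨c, h1, _, rfl⟩ := (s56ld_mem_unr_iff M q x).1 hx
  exact H1π_mem_continuousH1 _ _ h1

theorem s56ld_sum_apply {k G : Type} [CommRing k] [Group G] {B : Rep.{0} k G} {ι : Type*}
    (s : Finset ι) (a : ι → k) (c : ι → cocycles₁ B) (g : G) :
    (∑ i ∈ s, a i • c i : cocycles₁ B).1 g = ∑ i ∈ s, a i • (c i).1 g := by
  rw [Submodule.coe_sum, Finset.sum_apply]
  rfl

/-- a level-constant cocycle of `s56gw_res M q` is an `s56ld_Coc`. -/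
theorem s56ld_coc_of (M : Rep.{0} (ZMod p) GQ) (q : Nat.Primes) (c : cocycles₁ (s56gw_res M q))
    (hc : IsLevelConstant₁ (primeLocalToGlobal q) c) :
    s56ld_Coc (primeLocalToGlobal q) M.ρ (c : primeLocalGaloisGroup q → M) := by
  refine ⟨fun g h => ?_, hc⟩
  have h1 := (mem_cocycles₁_iff (A := s56gw_res M q) c.1).1 c.2 g h
  rw [add_comm]
  exact h1

/-- the range of `primeLocalToGlobal q` is the decomposition group of `primeLocalPlace q`. -/
theorem s56ld_range (q : Nat.Primes) (σ : GQ) :
    σ ∈ (primeLocalPlace q).decompositionSubgroup ℚ ↔ ∃ g, primeLocalToGlobal q g = σ := by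
  letI : Fact (q : ℕ).Prime := ⟨q.2⟩
  exact li_mem_decompositionSubgroup_iff (q : ℕ)

theorem s56ld_liesOver (q : Nat.Primes) : (primeLocalPlace q).LiesOverPrime (q : ℕ) := by
  letI : Fact (q : ℕ).Prime := ⟨q.2⟩
  exact pl_padicPlace_liesOver (q : ℕ)

theorem s56ld_inertia_le (q : Nat.Primes) (σ : GQ)
    (hσ : σ ∈ (primeLocalPlace q).inertiaSubgroupIn ℚ) : ∃ g, primeLocalToGlobal q g = σ := by
  rw [← s56ld_range]
  exact MulAction.mem_stabilizer_iff.2 ((tl_mem_inertiaSubgroupIn_iff _ σ).1 hσ).1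

/-- **the count of ramified local classes at a prime `q ≠ p` where `M` is unramified.** -/
theorem s56ld_cH1_le (M : Rep.{0} (ZMod p) GQ) [FiniteDimensional (ZMod p) M] (q : Nat.Primes)
    (hpq : p ≠ (q : ℕ))
    (hunr : ∀ σ ∈ (primeLocalPlace q).inertiaSubgroupIn ℚ, M.ρ σ = 1)
    {φ : GQ} (hφ : (primeLocalPlace q).IsFrobeniusAt φ (q : ℕ))
    [FiniteDimensional (ZMod p) (s56ld_unr M q)] :
    FiniteDimensional (ZMod p) (s56gw_cH1 M q) ∧
      finrank (ZMod p) (s56gw_cH1 M q) ≤ finrank (ZMod p) (s56ld_unr M q) +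
        finrank (ZMod p) (LinearMap.ker (M.ρ φ - ((q : ℕ) : ZMod p) • LinearMap.id)) := by
  classical
  set A := primeLocalPlace q with hA
  set r := primeLocalToGlobal q with hr
  have hφ' := mzf3_tfa_unfold A hφ
  have hφr : ∃ f, r f = φ := (s56ld_range q φ).1 hφ.mem_decompositionSubgroup
  apply s56ld_la (N := LinearMap.ker (M.ρ φ - ((q : ℕ) : ZMod p) • LinearMap.id))
    (s56ld_unr M q) (s56gw_cH1 M q) (s56ld_unr_le M q)
  intro n x hx
  have hx' : ∀ i, ∃ c : cocycles₁ (s56gw_res M q), IsLevelConstant₁ r c ∧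
      (H1π (s56gw_res M q)).hom c = x i := fun i => (mem_continuousH1_iff _ _ _).1 (hx i)
  choose c hc hcx using hx'
  have hcoc : ∀ i, s56ld_Coc r M.ρ ((c i : cocycles₁ (s56gw_res M q)) :
      primeLocalGaloisGroup q → M) := fun i => s56ld_coc_of M q (c i) (hc i)
  obtain ⟨t, ht, hfrob, hind⟩ := s56ld_indep A (s56ld_inertia_le q) hunr q.2 (s56ld_liesOver q)
    hpq hcoc hφ'.1 hφ'.2 hφr
  refine ⟨fun i => ⟨(c i).1 t, ?_⟩, ?_⟩
  · rw [LinearMap.mem_ker, LinearMap.sub_apply, LinearMap.smul_apply, LinearMap.id_apply,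
      sub_eq_zero]
    exact hfrob i
  · intro a ha
    have ha' : ∑ i, a i • (c i).1 t = 0 := by
      have := congrArg Subtype.val ha
      simpa using this
    have h1 := hind a ha'
    rw [s56ld_mem_unr_iff]
    refine ⟨∑ i, a i • c i, ?_, ?_, ?_⟩
    · have := s56ld_coc_sum (r := r) (ρ := M.ρ) Finset.univ a hcoc
      convert this.level using 1
      funext g
      exact s56ld_sum_apply Finset.univ a c g
    · intro g hg
      have h2 := h1 g hg
      rw [← h2]
      exact s56ld_sum_apply Finset.univ a c g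
    · rw [map_sum]
      refine Finset.sum_congr rfl fun i _ => ?_
      rw [map_smul, hcx]

end Local

end Fermat.Agent.S56
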