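/-
S56, node [LOC-TW], FINAL (helper7 + helper2): `s56a_LocTW_stmt` with no hypothesis left.
Prefix `s56ld_`.

`s56ld_frobGen : s56w_FrobGen_stmt` (the seam of helper2's `S56/LocTW/Main.lean`) from
`s56ld_frob_gen'` (`S56/LocD/FrobGen.lean`), and `s56ld_locTW : s56a_LocTW_stmt`.
-/
import Mathlib
import Fermat.Agent.S56.LocD.FrobGen
import Fermat.Agent.S56.LocTW.Main

set_option autoImplicit false

noncomputable section

namespace Fermat.Agent.S56

open ExtCitation

local notation "Qb" => AlgebraicClosure ℚ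
local notation "GQ" => (AlgebraicClosure ℚ ≃ₐ[ℚ] AlgebraicClosure ℚ)

/-- **[FROB-GEN]** in the shape of `S56/LocTW/Main.lean`. -/
theorem s56ld_frobGen : s56w_FrobGen_stmt := by
  intro q φ hφ F hF σ hσ
  have := hF
  obtain ⟨n, i, hi, s, hs, h⟩ := s56ld_frob_gen' (primeLocalPlace q) F hφ q.2 (s56ld_liesOver q) hσ
  refine ⟨(n : ℤ), i, hi, ?_⟩
  have h1 : (φ ^ (n : ℤ) * i)⁻¹ * σ = s := by
    rw [zpow_natCast, h]
    group
  rw [h1]
  exact hs

/-- **[LOC-TW]**: `h¹(G_q, M) ≤ 2 h⁰(G_q, M)` at a prime `q ≡ 1 mod p` where `M` is unramified. -/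
theorem s56ld_locTW : s56a_LocTW_stmt := s56w_main s56ld_frobGen

end Fermat.Agent.S56
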